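import Fermat.Agent.Gateway.EIS.Main

/-!
# P-S27, block A, A-EIS (helper67): `h_χ = E_χ / E_1` for a general finite-index `Γ ≤ SL(2, ℤ)`

`Gateway/EIS/HChi.lean` proves the cusp-meromorphy of all `SL(2, ℤ)`-translates of `h_χ` under the
hypothesis `Γ(N) ≤ Γ`.  Only the following consequence is used there: every conjugate
`g T ^ N g⁻¹` lies in `Γ`.  Here we redo the last step under that hypothesis (`IsWidth Γ w`), which
holds for every subgroup of finite index (`isWidth_factorial_index`), congruence or not.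

* `IsWidth Γ w : ∀ g, g * T ^ w * g⁻¹ ∈ Γ`;
* `isWidth_of_Gamma_le`, `isWidth_factorial_index`, `exists_isWidth`;
* `isCuspMer_smul_hChi_of_isWidth`, `isCuspMer_smul_hChiPE_of_isWidth`;
* `exists_hChi_of_isWidth`: the `Γ`-general form of `Gateway.EIS.exists_hChi`.
-/

set_option autoImplicit false

open UpperHalfPlane Complex Filter Function EisensteinSeries Matrix
open Fermat.Agent.S24 Fermat.Agent.S24.CuspOrd
open Fermat.Agent.Gateway Fermat.Agent.Gateway.EIS Fermat.Agent.Gateway.Root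
open scoped Manifold MatrixGroups Topology

namespace Fermat.Agent.S27x.EIS

/-- `w` is a common multiple of all cusp widths of `Γ`: every conjugate of `T ^ w` lies in `Γ`. -/
def IsWidth (Γ : Subgroup SL(2, ℤ)) (w : ℕ) : Prop :=
  ∀ g : SL(2, ℤ), g * ModularGroup.T ^ (w : ℤ) * g⁻¹ ∈ Γ

theorem isWidth_of_Gamma_le {Γ : Subgroup SL(2, ℤ)} {N : ℕ}
    (hΓ : CongruenceSubgroup.Gamma N ≤ Γ) : IsWidth Γ N :=
  fun g => hΓ (conj_T_zpow_mem_Gamma N g)

theorem IsWidth.mono {Γ Γ' : Subgroup SL(2, ℤ)} {w : ℕ} (h : IsWidth Γ w) (hle : Γ ≤ Γ') :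
    IsWidth Γ' w := fun g => hle (h g)

theorem IsWidth.mul_right {Γ : Subgroup SL(2, ℤ)} {w : ℕ} (h : IsWidth Γ w) (m : ℕ) :
    IsWidth Γ (w * m) := by
  intro g
  have e : g * ModularGroup.T ^ ((w * m : ℕ) : ℤ) * g⁻¹ =
      (g * ModularGroup.T ^ (w : ℤ) * g⁻¹) ^ m := by
    rw [conj_pow, ← zpow_natCast (ModularGroup.T ^ (w : ℤ)) m, ← _root_.zpow_mul]
    push_cast
    rfl
  rw [e]
  exact Γ.pow_mem (h g) m

/-- A subgroup of finite index `d` has width `d !`. -/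
theorem isWidth_factorial_index (Γ : Subgroup SL(2, ℤ)) (hΓ : Γ.index ≠ 0) :
    IsWidth Γ (Γ.index).factorial := by
  intro g
  obtain ⟨n, hn0, hnle, hn⟩ := Subgroup.exists_pow_mem_of_index_ne_zero hΓ
    (g * ModularGroup.T * g⁻¹)
  obtain ⟨m, hm⟩ := Nat.dvd_factorial hn0 hnle
  have e : g * ModularGroup.T ^ (((Γ.index).factorial : ℕ) : ℤ) * g⁻¹ =
      ((g * ModularGroup.T * g⁻¹) ^ n) ^ m := by
    rw [← pow_mul, ← hm, conj_pow, zpow_natCast]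
  rw [e]
  exact Γ.pow_mem hn m

theorem exists_isWidth (Γ : Subgroup SL(2, ℤ)) [Γ.FiniteIndex] : ∃ w : ℕ, 0 < w ∧ IsWidth Γ w :=
  ⟨_, Nat.factorial_pos _, isWidth_factorial_index Γ Subgroup.FiniteIndex.index_ne_zero⟩

variable {Γ : Subgroup SL(2, ℤ)} {χ : Γ →* ℂˣ}

/-- The weight of `E_χ` transported to the cusp `g` is invariant under `T ^ w`. -/
theorem slashWeight_T_zpow_slashWeight_rowWeight_of_isWidth (h : AdmChar Γ χ) {w : ℕ}
    (hw : IsWidth Γ w) (g : SL(2, ℤ)) :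
    slashWeight (ModularGroup.T ^ (w : ℤ)) (slashWeight g (rowWeight Γ χ)) =
      slashWeight g (rowWeight Γ χ) := by
  let δ : Γ := ⟨g * ModularGroup.T ^ (w : ℤ) * g⁻¹, hw g⟩
  have hχδ : χ δ = 1 := by
    refine h.par δ ?_
    show (((g * ModularGroup.T ^ (w : ℤ) * g⁻¹ : SL(2, ℤ)) :
      Matrix (Fin 2) (Fin 2) ℤ).trace) ^ 2 = 4
    rw [trace_conj_T_zpow]
    norm_num
  have h1 : g * ModularGroup.T ^ (w : ℤ) = (δ : SL(2, ℤ)) * g := by
    show g * ModularGroup.T ^ (w : ℤ) = g * ModularGroup.T ^ (w : ℤ) * g⁻¹ * g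
    rw [inv_mul_cancel_right]
  rw [← slashWeight_mul, h1, slashWeight_mul, slashWeight_rowWeight h.trivOnUnip, hχδ]
  simp

theorem eisHol_slashWeight_mem_cuspFnAlg_of_isWidth (h : AdmChar Γ χ) {w : ℕ}
    (hw : IsWidth Γ w) (g : SL(2, ℤ)) :
    eisHol (slashWeight g (rowWeight Γ χ)) ∈ cuspFnAlg w :=
  eisHol_mem_cuspFnAlg (h.bddWeight.slashWeight g) w
    (slashWeight_T_zpow_slashWeight_rowWeight_of_isWidth h hw g)

/-- **Behaviour at the cusps, `Γ` general**: every `SL(2, ℤ)`-translate of `h_χ` is a quotient of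
`w`-periodic holomorphic functions that are bounded at `i∞`. -/
theorem isCuspMer_smul_hChi_of_isWidth (h : AdmChar Γ χ) {w : ℕ} (hw : IsWidth Γ w)
    (g : SL(2, ℤ)) : IsCuspMer w (g • hChi Γ χ) := by
  obtain ⟨h1, h2⟩ := smul_hChi_eq h g
  exact ⟨_, _, eisHol_slashWeight_mem_cuspFnAlg_of_isWidth h hw g⁻¹,
    eisHol_slashWeight_mem_cuspFnAlg_of_isWidth (AdmChar.one Γ) hw g⁻¹, h2, h1⟩

section RootsOfUnity

variable {n : ℕ} [NeZero n]

theorem isCuspMer_smul_hChiPE_of_isWidth {w : ℕ} (hw : IsWidth Γ w)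
    (χ : A2.Count.charPE Γ (rootsOfUnity n ℂ)) (g : SL(2, ℤ)) :
    IsCuspMer w (g • hChiPE χ) :=
  isCuspMer_smul_hChi_of_isWidth (admChar_unitsChar χ) hw g

/-- **A-EIS, final export.**  For every `χ ∈ charPE Γ μ_n` (`Γ` any subgroup with `IsWidth Γ w`)
there is a nonzero meromorphic function `h` on `ℍ` with `h(γ z) = χ(γ) h(z)` for `γ ∈ Γ`, with
`h ^ n` invariant under `Γ`, all of whose `SL(2, ℤ)`-translates are meromorphic at `i∞` in the
parameter `q_w`. -/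
theorem exists_hChi_of_isWidth {w : ℕ} (hw : IsWidth Γ w)
    (χ : A2.Count.charPE Γ (rootsOfUnity n ℂ)) :
    ∃ h : MerFun, h ≠ 0 ∧
      (∀ γ : Γ, (γ : SL(2, ℤ))⁻¹ • h = cst (((χ.1 γ : rootsOfUnity n ℂ) : ℂˣ) : ℂ) * h) ∧
      (∀ γ : Γ, (γ : SL(2, ℤ)) • (h ^ n) = h ^ n) ∧
      ∀ g : SL(2, ℤ), IsCuspMer w (g • h) :=
  ⟨hChiPE χ, hChiPE_ne_zero χ, inv_smul_hChiPE χ, smul_hChiPE_pow χ,
    isCuspMer_smul_hChiPE_of_isWidth hw χ⟩

/-- Same, for a subgroup of finite index, with an unspecified width. -/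
theorem exists_hChi_of_finiteIndex [Γ.FiniteIndex]
    (χ : A2.Count.charPE Γ (rootsOfUnity n ℂ)) :
    ∃ w : ℕ, 0 < w ∧ IsWidth Γ w ∧ ∃ h : MerFun, h ≠ 0 ∧
      (∀ γ : Γ, (γ : SL(2, ℤ))⁻¹ • h = cst (((χ.1 γ : rootsOfUnity n ℂ) : ℂˣ) : ℂ) * h) ∧
      (∀ γ : Γ, (γ : SL(2, ℤ)) • (h ^ n) = h ^ n) ∧
      ∀ g : SL(2, ℤ), IsCuspMer w (g • h) := by
  obtain ⟨w, hw0, hw⟩ := exists_isWidth Γ
  exact ⟨w, hw0, hw, exists_hChi_of_isWidth hw χ⟩

end RootsOfUnity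

end Fermat.Agent.S27x.EIS
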